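import Mathlib
import Fermat.Prelude.Def_ModularCurve_X0ModL
import Fermat.Prelude.Def_ModularCurve_GenusNumerics
import Fermat.Agent.MUL.Orig.S18.KeyBasic

/-!
# Cluster T / M3: the count of supersingular points — definitions and exact statements
(helper98; architect of T: helper81)

`q` a prime, `q ∤ N₀`, `k` a field of characteristic `q`, `Fk = modularFunctionFieldFullC k N₀`
(the reduction of the function field of `X₀(N₀)`; a subfield of `k((t))`).

* `ssFun k q = Δ̄ ^ (-(q - 1)) ∈ k((t))`: the reduction of `u = Δ(z) / Δ(qz)` (M1u).  It lies in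
  `k(j̄)`, it is a polynomial of degree `q - 1` in `j̄`, and its zeros on `X₀(N₀)` mod `q` are the
  supersingular points = the nodes of `X₀(q N₀)` mod `q`.
* `SSArith`   (pure arithmetic): `12 (g(qN₀) + 1 - 2 g(N₀))` in terms of `ψ, ν₂, ν₃` of `N₀`.
* `SSPoly`    (pure algebra on top of Swinnerton-Dyer, `q ≥ 5`): `ssFun` is a polynomial `P(j̄)`,
  with root multiplicities `≤ 12`, `≤ 4` at `0`, `≤ 6` at `1728`.
* the final count `ssCount_ge` is stated in `SSCount.lean`.
-/

set_option autoImplicit false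

noncomputable section

open Polynomial ModularCurve

namespace Fermat.Agent.BadRed

/-- `Δ̄ ^ (-(q - 1))` as a Laurent series over `k`, `Δ = t ∏ (1 - t^n)^24`.
For `k` of characteristic `q` this is the reduction of `u = Δ(z) / Δ(qz)`. -/
def ssFun (k : Type*) [CommRing k] (q : ℕ) : LaurentSeries k :=
  HahnSeries.single (-((q : ℤ) - 1)) (1 : k) *
    HahnSeries.ofPowerSeries ℤ k ((dedekindEtaUnitInv ^ (q - 1)).map (Int.castRingHom k))

/-- (SS-A) the arithmetic of the genus formula at level `q N₀`, `q ≥ 5` prime, `q ∤ N₀`. -/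
def SSArith : Prop :=
  ∀ (N₀ q : ℕ), N₀ ≠ 0 → q.Prime → 5 ≤ q → ¬ q ∣ N₀ →
    12 * genusFormula (q * N₀) + 12 =
      24 * genusFormula N₀ + ((q : ℚ) - 1) * (dedekindPsi N₀ : ℚ)
        + 3 * (nuTwo N₀ : ℚ) * (if q % 4 = 3 then 2 else 0)
        + 4 * (nuThree N₀ : ℚ) * (if q % 3 = 2 then 2 else 0)

/-- (SS-P) the supersingular polynomial: `ssFun = u₀ P(j̄)` with `P` of degree `q - 1`, root
multiplicities at most `12` (at most `4` at `0`, at most `6` at `1728`), `P(0) = 0` if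
`q ≡ 2 mod 3`, `P(1728) = 0` if `q ≡ 3 mod 4`. -/
def SSPoly : Prop :=
  ∀ (k : Type) [Field k] (q : ℕ) [Fact q.Prime] [CharP k q], 5 ≤ q →
    ∃ (P : k[X]) (u₀ : k), u₀ ≠ 0 ∧ P.natDegree = q - 1 ∧
      ssFun k q = HahnSeries.C u₀ * Polynomial.aeval (jqModC k) P ∧
      (∀ c : k, P.rootMultiplicity c ≤ 12) ∧
      P.rootMultiplicity 0 ≤ 4 ∧ P.rootMultiplicity 1728 ≤ 6 ∧
      (q % 3 = 2 → P.eval 0 = 0) ∧ (q % 4 = 3 → P.eval 1728 = 0)

end Fermat.Agent.BadRed
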