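/-
Cluster T (bad reduction at `q ‖ N`), modular instance (helper16): the valuation rings of an
algebraic extension `K / ℚ` over a prime `q` are of RANK ONE (archimedean value group):

  `arch_of_liesOverPrime : c ∈ A → c⁻¹ ∉ A → ∀ d, ∃ j, c ^ j * d ∈ A`

(= the field `arch` of `NodalCore`, WP N4).  Proof: Newton polygon.  A nonzero algebraic `y` is a
root of `p ∈ ℤ[X]`, `p ≠ 0`; in the vanishing sum `∑ a_i y^i` the maximal value is attained twice,
so `v(y)^m v(q)^β = v(q)^α` with `m ≥ 1`.
-/
import Mathlib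
import Fermat.Agent.MUL.Orig.Lib.GaussInt.Tame
import Fermat.Agent.MUL.Orig.Lib.BadRed.FundIneq
import Fermat.Agent.MUL.Lib.BadRed.Mod.GaussSetupFinal

set_option autoImplicit false

noncomputable section

namespace Fermat.Agent.BadRed

open Fermat.Agent.GaussInt Polynomial

variable {K : Type*} [Field K] [Algebra ℚ K] {A : ValuationSubring K}

section

variable {q : ℕ} (hq : q.Prime) (hA : A.LiesOverPrime q)
include hq hA

/-- **Newton polygon**: a nonzero algebraic element has a power whose value is a quotient of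
powers of `v(q)`. -/
theorem exists_pow_valuation_mul_eq {y : K} (hy : y ≠ 0) (halg : IsAlgebraic ℚ y) :
    ∃ m α β : ℕ, 0 < m ∧
      A.valuation y ^ m * A.valuation (q : K) ^ β = A.valuation (q : K) ^ α := by
  have halgZ : IsAlgebraic ℤ y := (IsFractionRing.isAlgebraic_iff ℤ ℚ K).mpr halg
  obtain ⟨p, hp0, hpy⟩ := halgZ
  -- the vanishing sum
  have hsum : ∑ i ∈ p.support, algebraMap ℤ K (p.coeff i) * y ^ i = 0 := by
    rw [aeval_eq_sum_range, ← Finset.sum_subset (s₁ := p.support)] at hpy
    · simpa [Algebra.smul_def] using hpy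
    · intro i hi
      rw [Finset.mem_range]
      exact Nat.lt_succ_of_le (le_natDegree_of_mem_supp i hi)
    · intro i _ hi
      rw [notMem_support_iff] at hi
      rw [hi, zero_smul]
  have hcoeff : ∀ i ∈ p.support, algebraMap ℤ K (p.coeff i) ≠ 0 := by
    intro i hi
    rw [mem_support_iff] at hi
    rw [Ne, ← map_zero (algebraMap ℤ K)]
    intro h
    have hinj : Function.Injective (algebraMap ℤ K) := by
      have : algebraMap ℤ K = Int.castRingHom K := rfl
      rw [this]
      have hchar : CharZero K := charZero_of_injective_algebraMap (algebraMap ℚ K).injective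
      exact Int.cast_injective
    exact hi (hinj h)
  have hterm : ∀ i ∈ p.support, algebraMap ℤ K (p.coeff i) * y ^ i ≠ 0 := fun i hi =>
    mul_ne_zero (hcoeff i hi) (pow_ne_zero i hy)
  have hne : ∃ i ∈ p.support, algebraMap ℤ K (p.coeff i) * y ^ i ≠ 0 := by
    obtain ⟨i, hi⟩ := nonempty_support_iff.mpr hp0
    exact ⟨i, hi, hterm i hi⟩
  obtain ⟨i, hi, j, hj, hij, hval, -⟩ :=
    exists_ne_val_eq_of_sum_eq_zero A.valuation p.support _ hsum hne
  -- values of the coefficients
  have hvc : ∀ l ∈ p.support, ∃ e : ℕ,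
      A.valuation (algebraMap ℤ K (p.coeff l)) = A.valuation (q : K) ^ e := by
    intro l hl
    have h := valuation_intCast_eq_pow hq hA (K := K) (a := p.coeff l) (mem_support_iff.mp hl)
    simpa using h
  have hvy : A.valuation y ≠ 0 := (Valuation.ne_zero_iff _).mpr hy
  -- symmetric statement
  have key : ∀ i j : ℕ, i ∈ p.support → j ∈ p.support → i < j →
      A.valuation (algebraMap ℤ K (p.coeff i) * y ^ i) =
        A.valuation (algebraMap ℤ K (p.coeff j) * y ^ j) →
      ∃ m α β : ℕ, 0 < m ∧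
        A.valuation y ^ m * A.valuation (q : K) ^ β = A.valuation (q : K) ^ α := by
    intro i j hi hj hlt hval
    obtain ⟨a, ha⟩ := hvc i hi
    obtain ⟨b, hb⟩ := hvc j hj
    refine ⟨j - i, a, b, Nat.sub_pos_of_lt hlt, ?_⟩
    rw [map_mul, map_mul, map_pow, map_pow, ha, hb] at hval
    have hpos : A.valuation y ^ i ≠ 0 := pow_ne_zero i hvy
    have e : A.valuation y ^ j = A.valuation y ^ (j - i) * A.valuation y ^ i := by
      rw [← pow_add, Nat.sub_add_cancel hlt.le]
    rw [e] at hval
    have h2 : A.valuation (q : K) ^ a * A.valuation y ^ i =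
        (A.valuation y ^ (j - i) * A.valuation (q : K) ^ b) * A.valuation y ^ i := by
      rw [hval, mul_comm (A.valuation y ^ (j - i)) (A.valuation (q : K) ^ b), mul_assoc]
    exact (mul_right_cancel₀ hpos h2).symm
  rcases lt_or_gt_of_ne hij with h | h
  · exact key i j hi hj h hval
  · exact key j i hj hi h hval.symm

/-- powers of `v(q)` are strictly decreasing. -/
theorem pow_valuation_prime_lt {α β : ℕ} (h : A.valuation (q : K) ^ α < A.valuation (q : K) ^ β) :
    β < α := by
  by_contra hcon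
  have hle : α ≤ β := not_lt.mp hcon
  have hv : A.valuation (q : K) ≤ 1 := (valuation_prime_lt_one hq hA).le
  have := pow_le_pow_of_le_one zero_le hv hle
  exact absurd h (not_lt.mpr this)

/-- an element of the maximal ideal has a power divisible by `q`. -/
theorem exists_pow_valuation_le_prime {c : K} (hc : A.valuation c < 1) (hc0 : c ≠ 0)
    (halg : IsAlgebraic ℚ c) :
    ∃ m : ℕ, 0 < m ∧ A.valuation c ^ m ≤ A.valuation (q : K) := by
  obtain ⟨m, α, β, hm, h⟩ := exists_pow_valuation_mul_eq hq hA hc0 halg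
  have hv0 : A.valuation (q : K) ≠ 0 := by
    rw [Valuation.ne_zero_iff]
    have : (q : ℚ) ≠ 0 := by exact_mod_cast hq.ne_zero
    have h := (algebraMap ℚ K).injective.ne this
    simpa using h
  have hvβ : A.valuation (q : K) ^ β ≠ 0 := pow_ne_zero β hv0
  have hlt : A.valuation c ^ m < 1 := pow_lt_one₀ zero_le hc hm.ne'
  have h1 : A.valuation (q : K) ^ α < A.valuation (q : K) ^ β := by
    rw [← h]
    calc A.valuation c ^ m * A.valuation (q : K) ^ β
        < 1 * A.valuation (q : K) ^ β :=
          mul_lt_mul_of_pos_right hlt (zero_lt_iff.mpr hvβ)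
      _ = A.valuation (q : K) ^ β := one_mul _
  have hβα : β < α := pow_valuation_prime_lt hq hA h1
  refine ⟨m, hm, ?_⟩
  have e : A.valuation (q : K) ^ α =
      A.valuation (q : K) ^ (α - β) * A.valuation (q : K) ^ β := by
    rw [← pow_add, Nat.sub_add_cancel hβα.le]
  rw [e] at h
  have h2 := mul_right_cancel₀ hvβ h
  rw [h2]
  have hv : A.valuation (q : K) ≤ 1 := (valuation_prime_lt_one hq hA).le
  calc A.valuation (q : K) ^ (α - β) ≤ A.valuation (q : K) ^ 1 :=
        pow_le_pow_of_le_one zero_le hv (Nat.sub_pos_of_lt hβα)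
    _ = A.valuation (q : K) := pow_one _

/-- every element becomes integral after multiplication by a power of `q`. -/
theorem exists_pow_prime_mul_valuation_le_one {d : K} (hd0 : d ≠ 0) (halg : IsAlgebraic ℚ d) :
    ∃ N : ℕ, A.valuation (q : K) ^ N * A.valuation d ≤ 1 := by
  obtain ⟨m, α, β, hm, h⟩ := exists_pow_valuation_mul_eq hq hA hd0 halg
  refine ⟨β, ?_⟩
  have hv : A.valuation (q : K) ≤ 1 := (valuation_prime_lt_one hq hA).le
  by_contra hcon
  have hgt : 1 < A.valuation (q : K) ^ β * A.valuation d := not_le.mp hcon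
  have h1 : 1 < (A.valuation (q : K) ^ β * A.valuation d) ^ m := one_lt_pow₀ hgt hm.ne'
  have h2 : (A.valuation (q : K) ^ β * A.valuation d) ^ m =
      A.valuation (q : K) ^ α * A.valuation (q : K) ^ (β * (m - 1)) := by
    obtain ⟨m', rfl⟩ : ∃ m', m = m' + 1 := Nat.exists_eq_succ_of_ne_zero hm.ne'
    rw [← h, Nat.add_sub_cancel, mul_pow, ← pow_mul, Nat.mul_add, mul_one, pow_add,
      mul_comm (A.valuation d ^ (m' + 1)) (A.valuation (q : K) ^ β), mul_assoc, mul_assoc,
      mul_comm (A.valuation d ^ (m' + 1)) (A.valuation (q : K) ^ (β * m')), ← mul_assoc,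
      ← mul_assoc, mul_comm (A.valuation (q : K) ^ (β * m')) (A.valuation (q : K) ^ β)]
  rw [h2] at h1
  have h3 : A.valuation (q : K) ^ α * A.valuation (q : K) ^ (β * (m - 1)) ≤ 1 :=
    mul_le_one' (pow_le_one₀ zero_le hv) (pow_le_one₀ zero_le hv)
  exact absurd h1 (not_lt.mpr h3)

/-- **RANK ONE**: the valuation rings of an algebraic extension of `ℚ` over a prime are
archimedean. -/
theorem arch_of_liesOverPrime [Algebra.IsAlgebraic ℚ K] :
    ∀ c : K, c ∈ A → c⁻¹ ∉ A → ∀ d : K, ∃ j : ℕ, c ^ j * d ∈ A := by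
  intro c hc hcinv d
  by_cases hd0 : d = 0
  · exact ⟨0, by rw [hd0, mul_zero]; exact A.zero_mem⟩
  by_cases hc0 : c = 0
  · exact ⟨1, by rw [hc0, pow_one, zero_mul]; exact A.zero_mem⟩
  have hcv : A.valuation c < 1 := by
    have h1 : A.valuation c ≤ 1 := (A.valuation_le_one_iff c).mpr hc
    refine lt_of_le_of_ne h1 fun h => hcinv ?_
    rw [← A.valuation_le_one_iff, map_inv₀, h, inv_one]
  obtain ⟨m, hm, hmle⟩ := exists_pow_valuation_le_prime hq hA hcv hc0
    (Algebra.IsAlgebraic.isAlgebraic c)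
  obtain ⟨N, hN⟩ := exists_pow_prime_mul_valuation_le_one hq hA hd0
    (Algebra.IsAlgebraic.isAlgebraic d)
  refine ⟨m * N, ?_⟩
  rw [← A.valuation_le_one_iff, map_mul, map_pow, pow_mul]
  calc (A.valuation c ^ m) ^ N * A.valuation d
      ≤ A.valuation (q : K) ^ N * A.valuation d :=
        mul_le_mul' (pow_le_pow_left₀ zero_le hmle N) le_rfl
    _ ≤ 1 := hN

end

/-- **RANK ONE** for the places of `ℚ̄` (the shape of `NodalCore.arch`). -/
theorem arch_algebraicClosure (A : ValuationSubring (AlgebraicClosure ℚ)) {q : ℕ} (hq : q.Prime)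
    (hA : A.LiesOverPrime q) :
    ∀ c : AlgebraicClosure ℚ, c ∈ A → c⁻¹ ∉ A →
      ∀ d : AlgebraicClosure ℚ, ∃ j : ℕ, c ^ j * d ∈ A := by
  have halg : Algebra.IsAlgebraic ℚ (AlgebraicClosure ℚ) := AlgebraicClosure.isAlgebraic ℚ
  exact arch_of_liesOverPrime hq hA

end Fermat.Agent.BadRed
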