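import Mathlib
import Fermat.Prelude.Def_ModularCurve_X0ModL
import Fermat.Prelude.Def_AlgebraicCurve_BaseChangeGalois
import Fermat.Agent.MUL.Orig.Lib.BadRed.Mod.SSDefs
import Fermat.Agent.MUL.Orig.Lib.Kronecker.Formal
import Fermat.Agent.MUL.F3.I2.Descent.Main

set_option autoImplicit false

/-!
# Cluster T, modular assembly MA6a: the coefficientwise Frobenius of `F_k(N₀)`  (helper18)

`k` a field, `Fk = modularFunctionFieldFullC k N₀ ⊂ k((t))`.

* `coeffMap_mem_fullC` : `coeffMap σ` preserves `F_k(N₀)` for every ring endomorphism `σ` of `k`;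
* `coeffAut k N₀ : (k ≃+* k) →* SemilinearAut k Fk` : the coefficientwise action of the ring
  automorphisms of `k`, `coe (coeffAut σ • f) = coeffMap σ f`, `baseAut = σ`;
* `coeffMap_ssFun`, `coeffAut_smul_eq_self_of_coe_ssFun` : `ssFun` has coefficients in the prime
  ring, so it is fixed; `ord_coeffAut_smul_of_coe_ssFun` : `(σ • Q).ord h = Q.ord h`;
* `frobAut k N₀ q : SemilinearAut k Fk` (`k` perfect of characteristic `q`) : the coefficientwise
  Frobenius `c ↦ c ^ q`; `coe_frobAut_smul`, `baseAut_frobAut`, `frobAut_smul_algebraMap`;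
* `ord_frobAut_smul_pos_iff`, `ord_frobAut_inv_smul_pos_iff` : the zeros of `h` (`coe h = ssFun`)
  are stable under `frobAut`, `frobAut⁻¹`;
* `coe_frobAut_inv_smul_pow` : `qExpand k q f = (frobAut⁻¹ • f) ^ q` (so `F_k(N₀)` is stable under
  `f(t) ↦ f(t ^ q)`), `qExpand_mem_fullC`.
-/

noncomputable section

open HahnSeries IntermediateField AlgebraicCurve ModularCurve

namespace Fermat.Agent.BadRed

section CoeffAut

variable (k : Type*) [Field k] (N₀ : ℕ)

/-- `coeffMap σ` preserves `F_k(N₀)`. -/
theorem coeffMap_mem_fullC (σ : k →+* k) {x : LaurentSeries k}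
    (hx : x ∈ modularFunctionFieldFullC k N₀) :
    coeffMap σ x ∈ modularFunctionFieldFullC k N₀ := by
  unfold modularFunctionFieldFullC at hx ⊢
  induction hx using IntermediateField.adjoin_induction with
  | mem y hy =>
    obtain ⟨d, hd, hdvd, rfl⟩ := hy
    have := hd
    rw [coeffMap_qExpand, coeffMap_jqModC]
    exact IntermediateField.subset_adjoin k _ ⟨d, hd, hdvd, rfl⟩
  | algebraMap c =>
    rw [coeffMap_algebraMap]
    exact IntermediateField.algebraMap_mem _ _
  | add x y _ _ hx hy =>
    rw [map_add]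
    exact add_mem hx hy
  | inv x _ hx =>
    rw [map_inv₀]
    exact inv_mem hx
  | mul x y _ _ hx hy =>
    rw [map_mul]
    exact mul_mem hx hy

/-- the coefficientwise action of a ring automorphism of `k` on `F_k(N₀)`. -/
def coeffRingAut (σ : k ≃+* k) :
    (modularFunctionFieldFullC k N₀) ≃+* (modularFunctionFieldFullC k N₀) where
  toFun x := ⟨coeffMap (σ : k →+* k) (x : LaurentSeries k), coeffMap_mem_fullC k N₀ _ x.2⟩
  invFun x := ⟨coeffMap (σ.symm : k →+* k) (x : LaurentSeries k),
    coeffMap_mem_fullC k N₀ _ x.2⟩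
  left_inv x := Subtype.ext <| by
    show coeffMap (σ.symm : k →+* k) (coeffMap (σ : k →+* k) (x : LaurentSeries k))
      = (x : LaurentSeries k)
    rw [coeffMap_coeffMap,
      coeffMap_congr (g := RingHom.id k) (RingHom.ext fun a => σ.symm_apply_apply a)
        (x : LaurentSeries k),
      coeffMap_id]
  right_inv x := Subtype.ext <| by
    show coeffMap (σ : k →+* k) (coeffMap (σ.symm : k →+* k) (x : LaurentSeries k))
      = (x : LaurentSeries k)
    rw [coeffMap_coeffMap,
      coeffMap_congr (g := RingHom.id k) (RingHom.ext fun a => σ.apply_symm_apply a)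
        (x : LaurentSeries k),
      coeffMap_id]
  map_mul' x y :=
    Subtype.ext (map_mul (coeffMap (σ : k →+* k)) (x : LaurentSeries k) (y : LaurentSeries k))
  map_add' x y :=
    Subtype.ext (map_add (coeffMap (σ : k →+* k)) (x : LaurentSeries k) (y : LaurentSeries k))

@[simp]
theorem coe_coeffRingAut_apply (σ : k ≃+* k) (x : modularFunctionFieldFullC k N₀) :
    (coeffRingAut k N₀ σ x : LaurentSeries k) = coeffMap (σ : k →+* k) (x : LaurentSeries k) :=
  rfl

theorem coeffRingAut_algebraMap (σ : k ≃+* k) (a : k) :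
    coeffRingAut k N₀ σ (algebraMap k (modularFunctionFieldFullC k N₀) a)
      = algebraMap k (modularFunctionFieldFullC k N₀) (σ a) :=
  Subtype.ext (coeffMap_algebraMap (σ : k →+* k) a)

/-- the coefficientwise action of the ring automorphisms of `k` on `F_k(N₀)`, as semilinear
automorphisms. -/
def coeffAut : (k ≃+* k) →* SemilinearAut k (modularFunctionFieldFullC k N₀) where
  toFun σ := ⟨(coeffRingAut k N₀ σ, σ), fun a => coeffRingAut_algebraMap k N₀ σ a⟩
  map_one' := by
    refine Subtype.ext (Prod.ext (RingEquiv.ext fun x => Subtype.ext ?_) rfl)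
    show coeffMap ((1 : k ≃+* k) : k →+* k) (x : LaurentSeries k) = (x : LaurentSeries k)
    rw [show ((1 : k ≃+* k) : k →+* k) = RingHom.id k from RingHom.ext fun _ => rfl,
      coeffMap_id]
  map_mul' σ τ := by
    refine Subtype.ext (Prod.ext (RingEquiv.ext fun x => Subtype.ext ?_) rfl)
    show coeffMap ((σ * τ : k ≃+* k) : k →+* k) (x : LaurentSeries k)
      = coeffMap (σ : k →+* k) (coeffMap (τ : k →+* k) (x : LaurentSeries k))
    rw [coeffMap_coeffMap]
    exact coeffMap_congr (RingHom.ext fun _ => rfl) _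

@[simp]
theorem toRingAut_coeffAut (σ : k ≃+* k) :
    SemilinearAut.toRingAut (coeffAut k N₀ σ) = coeffRingAut k N₀ σ :=
  rfl

@[simp]
theorem baseAut_coeffAut (σ : k ≃+* k) :
    SemilinearAut.baseAut (coeffAut k N₀ σ) = σ :=
  rfl

theorem coe_coeffAut_smul (σ : k ≃+* k) (x : modularFunctionFieldFullC k N₀) :
    ((coeffAut k N₀ σ • x : modularFunctionFieldFullC k N₀) : LaurentSeries k)
      = coeffMap (σ : k →+* k) (x : LaurentSeries k) :=
  rfl

theorem coeffAut_smul_algebraMap (σ : k ≃+* k) (c : k) :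
    coeffAut k N₀ σ • algebraMap k (modularFunctionFieldFullC k N₀) c
      = algebraMap k (modularFunctionFieldFullC k N₀) (σ c) :=
  coeffRingAut_algebraMap k N₀ σ c

/-- an element of `F_k(N₀)` whose expansion is fixed by `coeffMap σ` is fixed by `coeffAut σ`. -/
theorem coeffAut_smul_eq_self (σ : k ≃+* k) {h : modularFunctionFieldFullC k N₀}
    (hh : coeffMap (σ : k →+* k) (h : LaurentSeries k) = (h : LaurentSeries k)) :
    coeffAut k N₀ σ • h = h :=
  Subtype.ext hh

/-- the order of a fixed function at the transported place. -/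
theorem ord_coeffAut_smul_of_fixed (σ : k ≃+* k) {h : modularFunctionFieldFullC k N₀}
    (hh : coeffMap (σ : k →+* k) (h : LaurentSeries k) = (h : LaurentSeries k))
    (Q : Place k (modularFunctionFieldFullC k N₀)) :
    (coeffAut k N₀ σ • Q).ord h = Q.ord h := by
  have h1 := SemilinearAut.ord_smul (coeffAut k N₀ σ) Q h
  rwa [coeffAut_smul_eq_self k N₀ σ hh] at h1

end CoeffAut

/-! ### `ssFun` has coefficients in the prime ring -/

section SSFun

/-- `ssFun` commutes with every change of coefficients. -/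
theorem coeffMap_ssFun {R S : Type*} [CommRing R] [CommRing S] (f : R →+* S) (q : ℕ) :
    coeffMap f (ssFun R q) = ssFun S q := by
  unfold ssFun
  rw [map_mul, coeffMap_single, map_one, coeffMap_ofPowerSeries,
    ← RingHom.comp_apply (PowerSeries.map f) (PowerSeries.map (Int.castRingHom R)),
    ← PowerSeries.map_comp, RingHom.ext_int (f.comp (Int.castRingHom R)) (Int.castRingHom S)]

variable (k : Type*) [Field k] (N₀ : ℕ)

/-- a function with expansion `ssFun` is fixed by the coefficientwise automorphisms. -/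
theorem coeffAut_smul_eq_self_of_coe_ssFun (σ : k ≃+* k) (q : ℕ)
    {h : modularFunctionFieldFullC k N₀} (hh : (h : LaurentSeries k) = ssFun k q) :
    coeffAut k N₀ σ • h = h := by
  apply coeffAut_smul_eq_self
  rw [hh, coeffMap_ssFun]

/-- the zeros (and poles) of a function with expansion `ssFun` are stable under the
coefficientwise automorphisms. -/
theorem ord_coeffAut_smul_of_coe_ssFun (σ : k ≃+* k) (q : ℕ)
    {h : modularFunctionFieldFullC k N₀} (hh : (h : LaurentSeries k) = ssFun k q)
    (Q : Place k (modularFunctionFieldFullC k N₀)) :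
    (coeffAut k N₀ σ • Q).ord h = Q.ord h := by
  apply ord_coeffAut_smul_of_fixed
  rw [hh, coeffMap_ssFun]

end SSFun

/-! ### the Frobenius -/

section Frob

variable (k : Type*) [Field k] (N₀ : ℕ) (q : ℕ) [Fact q.Prime] [CharP k q]
  [PerfectRing k q]

/-- **the coefficientwise Frobenius** `c ↦ c ^ q` of `F_k(N₀)`. -/
def frobAut : SemilinearAut k (modularFunctionFieldFullC k N₀) :=
  coeffAut k N₀ (frobeniusEquiv k q)

theorem frobAut_def : frobAut k N₀ q = coeffAut k N₀ (frobeniusEquiv k q) := rfl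

theorem frobAut_inv : (frobAut k N₀ q)⁻¹ = coeffAut k N₀ (frobeniusEquiv k q)⁻¹ := by
  rw [frobAut_def, map_inv]

theorem coe_frobAut_smul (f : modularFunctionFieldFullC k N₀) :
    ((frobAut k N₀ q • f : modularFunctionFieldFullC k N₀) : LaurentSeries k)
      = coeffMap (frobenius k q) (f : LaurentSeries k) := by
  rw [frobAut_def, coe_coeffAut_smul]
  exact coeffMap_congr (RingHom.ext fun _ => rfl) _

@[simp]
theorem baseAut_frobAut : SemilinearAut.baseAut (frobAut k N₀ q) = frobeniusEquiv k q :=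
  rfl

theorem baseAut_frobAut_apply (c : k) : SemilinearAut.baseAut (frobAut k N₀ q) c = c ^ q :=
  rfl

theorem frobAut_smul_algebraMap (c : k) :
    frobAut k N₀ q • algebraMap k (modularFunctionFieldFullC k N₀) c
      = algebraMap k (modularFunctionFieldFullC k N₀) (c ^ q) :=
  coeffAut_smul_algebraMap k N₀ (frobeniusEquiv k q) c

/-- a function with expansion `ssFun` is fixed by the Frobenius. -/
theorem frobAut_smul_eq_self_of_coe_ssFun (q' : ℕ) {h : modularFunctionFieldFullC k N₀}
    (hh : (h : LaurentSeries k) = ssFun k q') : frobAut k N₀ q • h = h :=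
  coeffAut_smul_eq_self_of_coe_ssFun k N₀ _ q' hh

theorem frobAut_inv_smul_eq_self_of_coe_ssFun (q' : ℕ) {h : modularFunctionFieldFullC k N₀}
    (hh : (h : LaurentSeries k) = ssFun k q') : (frobAut k N₀ q)⁻¹ • h = h := by
  rw [frobAut_inv]
  exact coeffAut_smul_eq_self_of_coe_ssFun k N₀ _ q' hh

theorem ord_frobAut_smul_of_coe_ssFun (q' : ℕ) {h : modularFunctionFieldFullC k N₀}
    (hh : (h : LaurentSeries k) = ssFun k q') (Q : Place k (modularFunctionFieldFullC k N₀)) :
    (frobAut k N₀ q • Q).ord h = Q.ord h :=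
  ord_coeffAut_smul_of_coe_ssFun k N₀ _ q' hh Q

theorem ord_frobAut_inv_smul_of_coe_ssFun (q' : ℕ) {h : modularFunctionFieldFullC k N₀}
    (hh : (h : LaurentSeries k) = ssFun k q') (Q : Place k (modularFunctionFieldFullC k N₀)) :
    ((frobAut k N₀ q)⁻¹ • Q).ord h = Q.ord h := by
  rw [frobAut_inv]
  exact ord_coeffAut_smul_of_coe_ssFun k N₀ _ q' hh Q

/-- **the zeros of `h` are stable under the Frobenius.** -/
theorem ord_frobAut_smul_pos_iff (q' : ℕ) {h : modularFunctionFieldFullC k N₀}
    (hh : (h : LaurentSeries k) = ssFun k q') (Q : Place k (modularFunctionFieldFullC k N₀)) :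
    0 < (frobAut k N₀ q • Q).ord h ↔ 0 < Q.ord h := by
  rw [ord_frobAut_smul_of_coe_ssFun k N₀ q q' hh Q]

theorem ord_frobAut_inv_smul_pos_iff (q' : ℕ) {h : modularFunctionFieldFullC k N₀}
    (hh : (h : LaurentSeries k) = ssFun k q') (Q : Place k (modularFunctionFieldFullC k N₀)) :
    0 < ((frobAut k N₀ q)⁻¹ • Q).ord h ↔ 0 < Q.ord h := by
  rw [ord_frobAut_inv_smul_of_coe_ssFun k N₀ q q' hh Q]

/-- `f(t ^ q) = (Frob⁻¹ f)(t) ^ q`. -/
theorem coe_frobAut_inv_smul_pow (f : modularFunctionFieldFullC k N₀) :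
    ((((frobAut k N₀ q)⁻¹ • f) ^ q : modularFunctionFieldFullC k N₀) : LaurentSeries k)
      = qExpand k q (f : LaurentSeries k) := by
  have h1 := Fermat.Agent.Kronecker.pow_char_eq_qExpand_frobenius (k := k) q
    ((((frobAut k N₀ q)⁻¹ • f : modularFunctionFieldFullC k N₀)) : LaurentSeries k)
  have h2 : coeffMap (frobenius k q)
      ((((frobAut k N₀ q)⁻¹ • f : modularFunctionFieldFullC k N₀)) : LaurentSeries k)
        = (f : LaurentSeries k) := by
    rw [← coe_frobAut_smul, smul_inv_smul]
  rw [h2] at h1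
  rw [← h1]
  rfl

/-- `F_k(N₀)` is stable under `f(t) ↦ f(t ^ q)`. -/
theorem qExpand_mem_fullC {x : LaurentSeries k} (hx : x ∈ modularFunctionFieldFullC k N₀) :
    qExpand k q x ∈ modularFunctionFieldFullC k N₀ := by
  have h := coe_frobAut_inv_smul_pow k N₀ q ⟨x, hx⟩
  rw [← h]
  exact SetLike.coe_mem _

end Frob

end Fermat.Agent.BadRed
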